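import Fermat.Agent.S43.ESide.Abs
import Fermat.Agent.S44.Soft.Main
import Fermat.Agent.ES.D.Adic.Conj

/-!
# S43 / ESide, concrete layer

* `om_complexConj`   : `om p c = -1` for a complex conjugation `c`;
* `exists_data`      : for `E[p]` irreducible and ANY `t` with `CH (torRep W p) (om p) t` there are `c, g, g' ∈ G_ℚ` with `c * c = 1`, `om p c = -1`,
                       `sE t c g g' ≠ 0`, such that on EVERY representation `ρ₂` of `G_ℚ` over `ZMod p` with `CH ρ₂ (om p) t`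
                       `UE ρ₂ c g g' * UE ρ₂ c g g' = sE t c g g' • 1`      (`UE = (1+c) g (1-c) + (1-c) g' (1+c) = 4 u`).
-/

set_option autoImplicit false

open AlgebraicCurve ModularCurve

namespace Fermat.Agent.S43.ESide

open Fermat.Agent.ES Fermat.Agent.SS Fermat.Agent.S33 Fermat.Agent.S58 Fermat.Agent.S44.Soft

theorem om_complexConj (p : ℕ) [Fact p.Prime] {c : GQ}
    (hc : ∀ ζ : Qb, ∀ m : ℕ, m ≠ 0 → ζ ^ m = 1 → c ζ = ζ⁻¹) :
    ((om p c : (ZMod p)ˣ) : ZMod p) = -1 := by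
  have hp : p.Prime := Fact.out
  have h1 := om_eq_of p c (p - 1) (fun z hz => by
    rw [hc z p hp.ne_zero hz]
    have hz0 : z ≠ 0 := by
      rintro rfl
      rw [zero_pow hp.ne_zero] at hz
      exact zero_ne_one hz
    apply inv_eq_of_mul_eq_one_right
    rw [← pow_succ', Nat.sub_add_cancel hp.one_le, hz])
  rw [h1, Nat.cast_sub hp.one_le, ZMod.natCast_self, Nat.cast_one, zero_sub]

theorem exists_data {p : ℕ} [Fact p.Prime] (hp2 : p ≠ 2) (W : WeierstrassCurve ℤ) (hΔ : W.Δ ≠ 0)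
    (hirr : WeierstrassCurve.Affine.Point.GaloisRepIsIrreducible (K := Qb) ℚ (EQ W) p)
    (t : GQ → ZMod p) (hCH : CH (torRep W p) (om p) t) :
    ∃ c g g' : GQ, c * c = 1 ∧ ((om p c : (ZMod p)ˣ) : ZMod p) = -1 ∧ sE t c g g' ≠ 0 ∧
      tX t c g = 0 ∧ tY t c g' = 0 := by
  have hp : p.Prime := Fact.out
  have hirrU : Irr (torRep W p) := irr_torRep W p hirr
  have hnsU : ∃ h : GQ, ¬ IsScalar (torRep W p h) := by
    by_contra hcon
    push Not at hcon
    have h1 := finrank_eq_one_of_all_scalar hirrU hcon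
    rw [finrank_tor W hΔ p] at h1
    omega
  have h2 : (2 : ZMod p) ≠ 0 := by
    intro h
    have h3 : ((2 : ℕ) : ZMod p) = 0 := by exact_mod_cast h
    rw [ZMod.natCast_eq_zero_iff] at h3
    exact hp2 ((Nat.prime_dvd_prime_iff_eq hp Nat.prime_two).1 h3)
  obtain ⟨c, hcc, hc⟩ := Fermat.Agent.ES.D.exists_complexConj
  have hom := om_complexConj p hc
  obtain ⟨g, g', hs⟩ := exists_sE_ne_zero hCH hirrU hnsU h2 hcc hom
  have := hirrU.1
  exact ⟨c, g, g', hcc, hom, hs, tX_eq_zero hCH hcc g, tY_eq_zero hCH hcc g'⟩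

end Fermat.Agent.S43.ESide
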