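import Fermat.Agent.S44.Soft.AbsDefs

/-!
# S43 / ESide, abstract layer: the element `u` of the trace trick (T)

`ρ : G →* End_k V` with the relation `CH ρ om t` (`g + om(g) g⁻¹ = t(g)`), `c ∈ G`, `c * c = 1`, `om c = -1`.
Denominator free version: `XE = (1 + c) g (1 - c)`, `YE = (1 - c) g' (1 + c)`, `UE = XE + YE` (`= 4 u` of #3374).

* `CH.polar`, `polar_sum` : the polarised Cayley-Hamilton identity, for linear combinations of group elements;
* `UE_sq`                 : `UE * UE = sE t c g g' • 1`, where the scalar `sE` ONLY depends on `t` (so it is the same on every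
                            representation with the same `om`, `t`);
* `exists_sE_ne_zero`     : if `ρ` is irreducible and not all `ρ h` are scalar, `sE t c g g' ≠ 0` for suitable `g, g'`.
-/

set_option autoImplicit false

namespace Fermat.Agent.S43.ESide

open Fermat.Agent.S44.Soft

variable {k G V : Type*} [Field k] [Group G] [AddCommGroup V] [Module k V]

/-- polarised Cayley-Hamilton. -/
theorem CH.polar {ρ : G →* Module.End k V} {om : G →* kˣ} {t : G → k} (h : CH ρ om t)
    (g₁ g₂ : G) :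
    ρ g₁ * ρ g₂ + ρ g₂ * ρ g₁
      = t g₂ • ρ g₁ + t g₁ • ρ g₂ + (t (g₁ * g₂) - t g₁ * t g₂) • (1 : Module.End k V) := by
  have e1 : ((om g₁ : kˣ) : k) • ρ g₁⁻¹ = t g₁ • (1 : Module.End k V) - ρ g₁ :=
    eq_sub_of_add_eq' (h g₁)
  have e2 : ((om g₂ : kˣ) : k) • ρ g₂⁻¹ = t g₂ • (1 : Module.End k V) - ρ g₂ :=
    eq_sub_of_add_eq' (h g₂)
  have e12 := h (g₁ * g₂)
  have e3 : ((om (g₁ * g₂) : kˣ) : k) • ρ (g₁ * g₂)⁻¹
      = (((om g₂ : kˣ) : k) • ρ g₂⁻¹) * (((om g₁ : kˣ) : k) • ρ g₁⁻¹) := by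
    rw [mul_inv_rev, map_mul, map_mul, Units.val_mul, smul_mul_smul_comm, mul_comm]
  rw [e3, e1, e2, map_mul] at e12
  have e4 : (t g₂ • (1 : Module.End k V) - ρ g₂) * (t g₁ • (1 : Module.End k V) - ρ g₁)
      = (t g₁ * t g₂) • (1 : Module.End k V) - t g₂ • ρ g₁ - t g₁ • ρ g₂ + ρ g₂ * ρ g₁ := by
    rw [sub_mul, mul_sub, mul_sub, smul_mul_smul_comm, one_mul, smul_mul_assoc, one_mul,
      mul_smul_comm, mul_one, mul_comm (t g₂)]
    abel
  rw [e4] at e12
  rw [sub_smul, ← e12]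
  abel

/-- polarised Cayley-Hamilton for linear combinations of group elements. -/
theorem polar_sum {ρ : G →* Module.End k V} {om : G →* kˣ} {t : G → k} (h : CH ρ om t)
    {ι κ : Type*} [Fintype ι] [Fintype κ] (x : ι → k) (a : ι → G) (y : κ → k) (b : κ → G) :
    (∑ i, x i • ρ (a i)) * (∑ j, y j • ρ (b j)) + (∑ j, y j • ρ (b j)) * (∑ i, x i • ρ (a i))
      = (∑ j, y j * t (b j)) • (∑ i, x i • ρ (a i)) + (∑ i, x i * t (a i)) • (∑ j, y j • ρ (b j))
        + ((∑ i, ∑ j, x i * y j * t (a i * b j)) - (∑ i, x i * t (a i)) * (∑ j, y j * t (b j)))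
          • (1 : Module.End k V) := by
  have key : ∀ i j, (x i • ρ (a i)) * (y j • ρ (b j)) + (y j • ρ (b j)) * (x i • ρ (a i))
      = (y j * t (b j)) • (x i • ρ (a i)) + (x i * t (a i)) • (y j • ρ (b j))
        + (x i * y j * t (a i * b j) - (x i * t (a i)) * (y j * t (b j)))
          • (1 : Module.End k V) := by
    intro i j
    rw [smul_mul_smul_comm, smul_mul_smul_comm, mul_comm (y j) (x i), ← smul_add,
      CH.polar h (a i) (b j), smul_add, smul_add, smul_smul, smul_smul, smul_smul, smul_smul,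
      smul_smul]
    congr 1
    · congr 1
      · congr 1; ring
      · congr 1; ring
    · congr 1; ring
  calc (∑ i, x i • ρ (a i)) * (∑ j, y j • ρ (b j)) + (∑ j, y j • ρ (b j)) * (∑ i, x i • ρ (a i))
      = ∑ i, ∑ j, ((x i • ρ (a i)) * (y j • ρ (b j)) + (y j • ρ (b j)) * (x i • ρ (a i))) := by
        rw [Finset.sum_mul_sum, Finset.sum_mul_sum, Finset.sum_comm (s := Finset.univ (α := κ)),
          ← Finset.sum_add_distrib]
        exact Finset.sum_congr rfl fun i _ => Finset.sum_add_distrib.symm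
    _ = ∑ i, ∑ j, ((y j * t (b j)) • (x i • ρ (a i)) + (x i * t (a i)) • (y j • ρ (b j))
        + (x i * y j * t (a i * b j) - (x i * t (a i)) * (y j * t (b j)))
          • (1 : Module.End k V)) :=
        Finset.sum_congr rfl fun i _ => Finset.sum_congr rfl fun j _ => key i j
    _ = _ := by
        simp only [Finset.sum_add_distrib, sub_smul, Finset.sum_sub_distrib, Finset.sum_smul,
          Finset.smul_sum, Finset.sum_mul_sum]
        rw [Finset.sum_comm (s := Finset.univ (α := ι)) (t := Finset.univ (α := κ))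
          (f := fun i j => (y j * t (b j)) • x i • ρ (a i))]
        congr 1
        congr 1
        exact Finset.sum_comm

/-- `(1 + c) g (1 - c)`. -/
def XE (ρ : G →* Module.End k V) (c g : G) : Module.End k V := (1 + ρ c) * ρ g * (1 - ρ c)

/-- `(1 - c) g' (1 + c)`. -/
def YE (ρ : G →* Module.End k V) (c g' : G) : Module.End k V := (1 - ρ c) * ρ g' * (1 + ρ c)

/-- `4 u`. -/
def UE (ρ : G →* Module.End k V) (c g g' : G) : Module.End k V := XE ρ c g + YE ρ c g'

/-- coefficients and group elements of `XE`. -/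
def xc : Fin 4 → k := ![1, -1, 1, -1]
/-- group elements of `XE`. -/
def xa (c g : G) : Fin 4 → G := ![g, g * c, c * g, c * g * c]
/-- coefficients of `YE`. -/
def yc : Fin 4 → k := ![1, 1, -1, -1]

theorem XE_eq_sum (ρ : G →* Module.End k V) (c g : G) :
    XE ρ c g = ∑ i, (xc i : k) • ρ (xa c g i) := by
  simp only [XE, Fin.sum_univ_four, xc, xa, Matrix.cons_val_zero, Matrix.cons_val_one,
    Matrix.cons_val, map_mul]
  simp only [add_mul, mul_sub, one_mul, mul_one, one_smul, neg_smul]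
  abel

theorem YE_eq_sum (ρ : G →* Module.End k V) (c g : G) :
    YE ρ c g = ∑ i, (yc i : k) • ρ (xa c g i) := by
  simp only [YE, Fin.sum_univ_four, yc, xa, Matrix.cons_val_zero, Matrix.cons_val_one,
    Matrix.cons_val, map_mul]
  simp only [sub_mul, mul_add, one_mul, mul_one, one_smul, neg_smul]
  abel

/-- the "trace" of `XE`. -/
def tX (t : G → k) (c g : G) : k := ∑ i, (xc i : k) * t (xa c g i)
/-- the "trace" of `YE`. -/
def tY (t : G → k) (c g : G) : k := ∑ i, (yc i : k) * t (xa c g i)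

/-- the scalar `UE ^ 2`; it only depends on `t`. -/
def sE (t : G → k) (c g g' : G) : k :=
  ∑ i, ∑ j, (xc i : k) * yc j * t (xa c g i * xa c g' j)

theorem CH.conj [Nontrivial V] {ρ : G →* Module.End k V} {om : G →* kˣ} {t : G → k}
    (h : CH ρ om t) (a g : G) : t (a * g * a⁻¹) = t g := by
  have e1 := h (a * g * a⁻¹)
  have e2 := h g
  have e3 : om (a * g * a⁻¹) = om g := by
    rw [map_mul, map_mul, map_inv, mul_comm, ← mul_assoc, inv_mul_cancel, one_mul]
  have e4 : ρ (a * g * a⁻¹) + ((om (a * g * a⁻¹) : kˣ) : k) • ρ (a * g * a⁻¹)⁻¹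
      = ρ a * (ρ g + ((om g : kˣ) : k) • ρ g⁻¹) * ρ a⁻¹ := by
    rw [e3, mul_inv_rev, mul_inv_rev, inv_inv, map_mul, map_mul, map_mul, map_mul, mul_add,
      add_mul, mul_smul_comm, smul_mul_assoc, mul_assoc (ρ a) (ρ g⁻¹)]
  rw [e4, e2, mul_smul_comm, mul_one, smul_mul_assoc, rho_mul_inv] at e1
  have e5 : (t g - t (a * g * a⁻¹)) • (1 : Module.End k V) = 0 := by rw [sub_smul, e1, sub_self]
  rcases smul_eq_zero.1 e5 with h0 | h0
  · exact (sub_eq_zero.1 h0).symm
  · exact absurd h0 one_ne_zero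

theorem tX_eq_zero [Nontrivial V] {ρ : G →* Module.End k V} {om : G →* kˣ} {t : G → k}
    (h : CH ρ om t) {c : G} (hc : c * c = 1) (g : G) : tX t c g = 0 := by
  have hci : c⁻¹ = c := inv_eq_of_mul_eq_one_left hc
  have e1 : t (c * g) = t (g * c) := by
    have := CH.conj h c (g * c)
    rwa [hci, mul_assoc, mul_assoc, hc, mul_one] at this
  have e2 : t (c * g * c) = t g := by
    have := CH.conj h c g
    rwa [hci] at this
  simp only [tX, Fin.sum_univ_four, xc, xa, Matrix.cons_val_zero, Matrix.cons_val_one,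
    Matrix.cons_val]
  rw [e1, e2]
  ring

theorem tY_eq_zero [Nontrivial V] {ρ : G →* Module.End k V} {om : G →* kˣ} {t : G → k}
    (h : CH ρ om t) {c : G} (hc : c * c = 1) (g : G) : tY t c g = 0 := by
  have hci : c⁻¹ = c := inv_eq_of_mul_eq_one_left hc
  have e1 : t (c * g) = t (g * c) := by
    have := CH.conj h c (g * c)
    rwa [hci, mul_assoc, mul_assoc, hc, mul_one] at this
  have e2 : t (c * g * c) = t g := by
    have := CH.conj h c g
    rwa [hci] at this
  simp only [tY, Fin.sum_univ_four, yc, xa, Matrix.cons_val_zero, Matrix.cons_val_one,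
    Matrix.cons_val]
  rw [e1, e2]
  ring

theorem one_sub_mul_one_add (ρ : G →* Module.End k V) {c : G} (hc : c * c = 1) :
    (1 - ρ c) * (1 + ρ c) = 0 := by
  have : ρ c * ρ c = 1 := by rw [← map_mul, hc, map_one]
  simp only [sub_mul, mul_add, this, one_mul, mul_one]
  abel

theorem one_add_mul_one_sub (ρ : G →* Module.End k V) {c : G} (hc : c * c = 1) :
    (1 + ρ c) * (1 - ρ c) = 0 := by
  have : ρ c * ρ c = 1 := by rw [← map_mul, hc, map_one]
  simp only [add_mul, mul_sub, this, one_mul, mul_one]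
  abel

theorem XE_mul_XE (ρ : G →* Module.End k V) {c : G} (hc : c * c = 1) (g h : G) :
    XE ρ c g * XE ρ c h = 0 := by
  rw [XE, XE, mul_assoc, ← mul_assoc (1 - ρ c), ← mul_assoc (1 - ρ c), one_sub_mul_one_add ρ hc,
    zero_mul, zero_mul, mul_zero]

theorem YE_mul_YE (ρ : G →* Module.End k V) {c : G} (hc : c * c = 1) (g h : G) :
    YE ρ c g * YE ρ c h = 0 := by
  rw [YE, YE, mul_assoc, ← mul_assoc (1 + ρ c), ← mul_assoc (1 + ρ c), one_add_mul_one_sub ρ hc,
    zero_mul, zero_mul, mul_zero]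

/-- **`UE ^ 2` is the scalar `sE`**, which only depends on `t`. -/
theorem UE_sq {ρ : G →* Module.End k V} {om : G →* kˣ} {t : G → k} (h : CH ρ om t) {c : G}
    (hc : c * c = 1) (g g' : G) (hX : tX t c g = 0) (hY : tY t c g' = 0) :
    UE ρ c g g' * UE ρ c g g' = sE t c g g' • (1 : Module.End k V) := by
  have e := polar_sum h (xc (k := k)) (xa c g) (yc (k := k)) (xa c g')
  rw [← XE_eq_sum, ← YE_eq_sum] at e
  change _ = tY t c g' • _ + tX t c g • _ + (sE t c g g' - tX t c g * tY t c g') • _ at e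
  rw [hX, hY, zero_smul, zero_smul, zero_mul, sub_zero, zero_add, zero_add] at e
  rw [UE, add_mul, mul_add, mul_add, XE_mul_XE ρ hc, YE_mul_YE ρ hc, zero_add, add_zero, e]

/-- **non-vanishing.** -/
theorem exists_sE_ne_zero {ρ : G →* Module.End k V} {om : G →* kˣ} {t : G → k} (h : CH ρ om t)
    (hirr : Irr ρ) (hns : ∃ a : G, ¬ IsScalar (ρ a)) (h2 : (2 : k) ≠ 0) {c : G} (hc : c * c = 1)
    (hom : ((om c : kˣ) : k) = -1) : ∃ g g' : G, sE t c g g' ≠ 0 := by
  have := hirr.1
  have hcc : ρ c * ρ c = 1 := by rw [← map_mul, hc, map_one]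
  have hci : c⁻¹ = c := inv_eq_of_mul_eq_one_left hc
  -- `ρ c ≠ ± 1`
  have hne : ∀ ε : k, ε * ε = 1 → ρ c ≠ ε • (1 : Module.End k V) := by
    intro ε hε hcε
    obtain ⟨a, ha⟩ := hns
    apply ha
    have e1 := h (c * a)
    have e2 := h a
    have hε0 : ε ≠ 0 := by rintro rfl; simp at hε
    rw [map_mul, map_mul, Units.val_mul, hom, mul_inv_rev, map_mul, hci, hcε, smul_mul_assoc,
      one_mul, mul_smul_comm, mul_one, smul_smul] at e1
    -- `ε a - ε om(a) a⁻¹ = t(ca)`, `a + om(a) a⁻¹ = t(a)`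
    refine ⟨(2 : k)⁻¹ * (ε * t (c * a) + t a), ?_⟩
    have e3 : ε • (ε • ρ a + (-1 * ((om a : kˣ) : k) * ε) • ρ a⁻¹)
        = ρ a - ((om a : kˣ) : k) • ρ a⁻¹ := by
      rw [smul_add, smul_smul, smul_smul, hε, one_smul,
        show ε * (-1 * ((om a : kˣ) : k) * ε) = -(((om a : kˣ) : k) * (ε * ε)) by ring, hε,
        mul_one, neg_smul, sub_eq_add_neg]
    rw [e1, smul_smul] at e3
    have e4 : (2 : k) • ρ a = (ε * t (c * a) + t a) • (1 : Module.End k V) := by
      rw [add_smul, e3, ← e2, two_smul]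
      abel
    rw [mul_smul, ← e4, smul_smul, inv_mul_cancel₀ h2, one_smul]
  have ha0 : (1 + ρ c) ≠ 0 := by
    intro h0
    apply hne (-1) (by ring)
    rw [neg_smul, one_smul]
    exact eq_neg_of_add_eq_zero_right h0
  have hb0 : (1 - ρ c) ≠ 0 := by
    intro h0
    apply hne 1 (by ring)
    rw [one_smul]
    exact (sub_eq_zero.1 h0).symm
  by_contra hcon
  push Not at hcon
  have hU : ∀ g g' : G, XE ρ c g * YE ρ c g' + YE ρ c g' * XE ρ c g = 0 := by
    intro g g'
    have e := UE_sq h hc g g' (tX_eq_zero h hc g) (tY_eq_zero h hc g')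
    rw [hcon g g', zero_smul, UE, add_mul, mul_add, mul_add, XE_mul_XE ρ hc, YE_mul_YE ρ hc,
      zero_add, add_zero] at e
    exact e
  -- `(1+c) XY = 2 XY`, `(1+c) YX = 0`
  have hXY : ∀ g g' : G, XE ρ c g * YE ρ c g' = 0 := by
    intro g g'
    have e := congrArg (fun f => (1 + ρ c) * f) (hU g g')
    simp only [mul_add, mul_zero] at e
    have e1 : (1 + ρ c) * (YE ρ c g' * XE ρ c g) = 0 := by
      rw [YE, ← mul_assoc, ← mul_assoc, ← mul_assoc, one_add_mul_one_sub ρ hc, zero_mul, zero_mul,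
        zero_mul]
    have e2 : (1 + ρ c) * (XE ρ c g * YE ρ c g') = (2 : k) • (XE ρ c g * YE ρ c g') := by
      have e3 : (1 + ρ c) * (1 + ρ c) = (2 : k) • (1 + ρ c) := by
        simp only [add_mul, mul_add, hcc, one_mul, mul_one, two_smul]
        abel
      rw [XE, ← mul_assoc, ← mul_assoc, ← mul_assoc, e3, smul_mul_assoc, smul_mul_assoc,
        smul_mul_assoc]
    rw [e1, add_zero, e2] at e
    exact (smul_eq_zero.1 e).resolve_left h2
  -- a vector `v = (1+c) v₀ ≠ 0`
  obtain ⟨v₀, hv₀⟩ : ∃ v₀, (1 + ρ c) v₀ ≠ 0 := by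
    by_contra hall
    push Not at hall
    exact ha0 (LinearMap.ext hall)
  set v := (1 + ρ c) v₀ with hv
  -- kernels are proper
  have hkerb : LinearMap.ker (1 - ρ c) ≠ ⊤ := fun h0 => hb0 (LinearMap.ker_eq_top.1 h0)
  have hkera : LinearMap.ker (1 + ρ c) ≠ ⊤ := fun h0 => ha0 (LinearMap.ker_eq_top.1 h0)
  obtain ⟨g', hg'⟩ : ∃ g' : G, (1 - ρ c) (ρ g' v) ≠ 0 := by
    by_contra hall
    push Not at hall
    apply hkerb
    rw [eq_top_iff, ← hirr.span_orbit hv₀, Submodule.span_le]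
    rintro _ ⟨a, rfl⟩
    exact hall a
  set w := (1 - ρ c) (ρ g' v) with hw
  apply hkera
  rw [eq_top_iff, ← hirr.span_orbit hg', Submodule.span_le]
  rintro _ ⟨a, rfl⟩
  -- `(1+c) a w`, and `(1+c) a (1-c) (1-c) g' (1+c) v₀ = XY v₀ = 0`, `(1-c) w = 2 w`
  have e := congrArg (fun f : Module.End k V => f v₀) (hXY a g')
  simp only [XE, YE, Module.End.mul_apply, LinearMap.zero_apply] at e
  have e3 : (1 - ρ c) ((1 - ρ c) (ρ g' ((1 + ρ c) v₀))) = (2 : k) • w := by
    have e4 : (1 - ρ c) * (1 - ρ c) = (2 : k) • (1 - ρ c) := by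
      simp only [sub_mul, mul_sub, hcc, one_mul, mul_one, two_smul]
      abel
    rw [← Module.End.mul_apply, e4]
    rfl
  rw [e3, map_smul, map_smul] at e
  exact (smul_eq_zero.1 e).resolve_left h2

end Fermat.Agent.S43.ESide
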